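/-
S26, leaf ISO-2 : `Curve.cons` respects `Based.Iso` (field `cons` of `IsoNode`).
-/
import Fermat.Agent.S26.Nodes

set_option autoImplicit false

universe u

open CategoryTheory CategoryTheory.Limits AlgebraicGeometry NeronModelInfra GoodReductionJacobian

namespace Fermat.Agent.S26

open AbVar

variable {K : Type u} [Field K]

theorem iso_cons {𝔸 : AbVar K} (C : Curve 𝔸) (m : ℤ) (B B' : Based 𝔸) :
    Nonempty (Based.Iso B B') → Nonempty (Based.Iso (C.cons m B) (C.cons m B')) := by
  rintro ⟨i⟩
  have hc : pullback.fst C.c B.w ≫ C.c = (pullback.snd C.c B.w ≫ i.e.hom) ≫ B'.w := by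
    rw [Category.assoc, i.w, pullback.condition]
  have hc' : pullback.fst C.c B'.w ≫ C.c = (pullback.snd C.c B'.w ≫ i.e.inv) ≫ B.w := by
    rw [Category.assoc, ← i.w, Iso.inv_hom_id_assoc, pullback.condition]
  let E : pullback C.c B.w ≅ pullback C.c B'.w :=
    { hom := pullback.lift (pullback.fst C.c B.w) (pullback.snd C.c B.w ≫ i.e.hom) hc
      inv := pullback.lift (pullback.fst C.c B'.w) (pullback.snd C.c B'.w ≫ i.e.inv) hc'
      hom_inv_id := by
        apply pullback.hom_ext
        · rw [Category.assoc, pullback.lift_fst, pullback.lift_fst, Category.id_comp]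
        · rw [Category.assoc, pullback.lift_snd, pullback.lift_snd_assoc, Category.assoc,
            Iso.hom_inv_id, Category.comp_id, Category.id_comp]
      inv_hom_id := by
        apply pullback.hom_ext
        · rw [Category.assoc, pullback.lift_fst, pullback.lift_fst, Category.id_comp]
        · rw [Category.assoc, pullback.lift_snd, pullback.lift_snd_assoc, Category.assoc,
            Iso.inv_hom_id, Category.comp_id, Category.id_comp] }
  have hfst : E.hom ≫ pullback.fst C.c B'.w = pullback.fst C.c B.w := pullback.lift_fst _ _ _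
  have hsnd : E.hom ≫ pullback.snd C.c B'.w = pullback.snd C.c B.w ≫ i.e.hom :=
    pullback.lift_snd _ _ _
  have hw : E.hom ≫ pullback.fst C.c B'.w ≫ C.c = pullback.fst C.c B.w ≫ C.c := by
    rw [← Category.assoc, hfst]
  have hτ : Pt.comp E.hom hw ((Pt.comp (pullback.fst C.c B'.w) rfl C.ι) ^ m *
      Pt.comp (pullback.snd C.c B'.w) pullback.condition.symm B'.τ) =
      (Pt.comp (pullback.fst C.c B.w) rfl C.ι) ^ m *
      Pt.comp (pullback.snd C.c B.w) pullback.condition.symm B.τ := by
    rw [map_mul, map_zpow]
    congr 1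
    · congr 1
      apply Pt.ext
      simp only [Pt.comp_hom]
      rw [← Category.assoc, hfst]
    · apply Pt.ext
      simp only [Pt.comp_hom]
      rw [← Category.assoc, hsnd, Category.assoc, i.τ]
  refine ⟨⟨E, hw, ?_, ?_⟩⟩
  · show pullback.lift C.ε.1 B.pt.1 _ ≫ E.hom = pullback.lift C.ε.1 B'.pt.1 _
    apply pullback.hom_ext
    · rw [Category.assoc, hfst, pullback.lift_fst, pullback.lift_fst]
    · rw [Category.assoc, hsnd, pullback.lift_snd_assoc, pullback.lift_snd, i.pt]
  · have := congrArg Pt.hom hτ
    rw [Pt.comp_hom] at this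
    exact this

end Fermat.Agent.S26
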