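/-
S26, node ISO, leaf ISO-1: isomorphisms of based schemes transport `Good`
(field `good` of `IsoNode`).
-/
import Fermat.Agent.S26.Nodes

set_option autoImplicit false

universe u

open CategoryTheory CategoryTheory.Limits AlgebraicGeometry

namespace Fermat.Agent.S26

variable {K : Type u} [Field K]

/-- an isomorphism of based schemes maps the base point to the base point -/
theorem iso_inv_pt₀ {𝔸 : AbVar K} {B B' : Based 𝔸} (i : Based.Iso B B') :
    i.e.inv B'.pt₀ = B.pt₀ := by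
  unfold Based.pt₀
  rw [← i.pt]
  simp

theorem iso_good {𝔸 : AbVar K} (B B' : Based 𝔸) : Nonempty (Based.Iso B B') → B.Good → B'.Good := by
  rintro ⟨i⟩ ⟨U, hU, het⟩
  refine ⟨i.e.inv ⁻¹ᵁ U, ?_, ?_⟩
  · show i.e.inv B'.pt₀ ∈ U
    rwa [iso_inv_pt₀]
  · have h1 : B'.τ.hom = i.e.inv ≫ B.τ.hom := by rw [← i.τ, Iso.inv_hom_id_assoc]
    have h2 : (i.e.inv ⁻¹ᵁ U).ι ≫ B'.τ.hom = (i.e.inv ∣_ U) ≫ U.ι ≫ B.τ.hom := by
      rw [h1, ← Category.assoc, ← morphismRestrict_ι, Category.assoc]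
    rw [h2]
    infer_instance

end Fermat.Agent.S26
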