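/-
S26, leaf S26-ISO-3 (helper162): `Γ' × (Γ × W) ≅ Γ × (Γ' × W)` over `A` (field `swap` of `IsoNode`).
-/
import Fermat.Agent.S26.Nodes

set_option autoImplicit false

universe u

open CategoryTheory CategoryTheory.Limits AlgebraicGeometry NeronModelInfra GoodReductionJacobian

namespace Fermat.Agent.S26

open AbVar

variable {K : Type u} [Field K]

/-- pull-back of points is functorial -/
theorem Swap.comp_comp {𝔸 : AbVar K} {T T' T'' : Scheme.{u}} {t : T ⟶ SK K} {t' : T' ⟶ SK K}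
    {t'' : T'' ⟶ SK K} (ψ : T' ⟶ T) (hψ : ψ ≫ t = t') (ψ' : T'' ⟶ T') (hψ' : ψ' ≫ t' = t'')
    (x : 𝔸.Pt t) :
    Pt.comp ψ' hψ' (Pt.comp ψ hψ x) =
      Pt.comp (ψ' ≫ ψ) (by rw [Category.assoc, hψ, hψ']) x := by
  apply Pt.ext
  simp only [Pt.comp_hom, Category.assoc]

/-- pull-back of points only depends on the morphism -/
theorem Swap.comp_congr {𝔸 : AbVar K} {T T' : Scheme.{u}} {t : T ⟶ SK K} {t' : T' ⟶ SK K}
    {ψ ψ' : T' ⟶ T} (h : ψ = ψ') (hψ : ψ ≫ t = t') (hψ' : ψ' ≫ t = t') (x : 𝔸.Pt t) :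
    Pt.comp ψ hψ x = Pt.comp ψ' hψ' x := by
  subst h
  rfl

section

variable {𝔸 : AbVar K} (C C' : Curve 𝔸) (B : Based 𝔸)

/-- the morphism `Γ' × (Γ × W) ⟶ Γ × (Γ' × W)` -/
noncomputable def Swap.hom :
    pullback C'.c (pullback.fst C.c B.w ≫ C.c) ⟶ pullback C.c (pullback.fst C'.c B.w ≫ C'.c) :=
  pullback.lift (pullback.snd _ _ ≫ pullback.fst _ _)
    (pullback.lift (pullback.fst _ _) (pullback.snd _ _ ≫ pullback.snd _ _)
      (by
        rw [pullback.condition (f := C'.c) (g := pullback.fst C.c B.w ≫ C.c), Category.assoc,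
          pullback.condition (f := C.c) (g := B.w)]))
    (by
      rw [pullback.lift_fst_assoc, pullback.condition (f := C'.c)
        (g := pullback.fst C.c B.w ≫ C.c), Category.assoc])

@[reassoc (attr := simp)]
theorem Swap.hom_fst : Swap.hom C C' B ≫ pullback.fst _ _ = pullback.snd _ _ ≫ pullback.fst _ _ :=
  pullback.lift_fst _ _ _

@[reassoc (attr := simp)]
theorem Swap.hom_snd_fst :
    Swap.hom C C' B ≫ pullback.snd _ _ ≫ pullback.fst _ _ = pullback.fst _ _ := by
  rw [Swap.hom, pullback.lift_snd_assoc, pullback.lift_fst]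

@[reassoc (attr := simp)]
theorem Swap.hom_snd_snd :
    Swap.hom C C' B ≫ pullback.snd _ _ ≫ pullback.snd _ _ =
      pullback.snd _ _ ≫ pullback.snd _ _ := by
  rw [Swap.hom, pullback.lift_snd_assoc, pullback.lift_snd]

theorem Swap.hom_hom : Swap.hom C C' B ≫ Swap.hom C' C B = 𝟙 _ := by
  apply pullback.hom_ext
  · simp
  · apply pullback.hom_ext
    · simp
    · simp

theorem Swap.hom_w :
    Swap.hom C C' B ≫ pullback.fst C.c (pullback.fst C'.c B.w ≫ C'.c) ≫ C.c =
      pullback.fst C'.c (pullback.fst C.c B.w ≫ C.c) ≫ C'.c := by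
  rw [Swap.hom_fst_assoc]
  exact (pullback.condition (f := C'.c) (g := pullback.fst C.c B.w ≫ C.c)).symm

theorem Swap.lift_hom {T : Scheme.{u}} (a : T ⟶ C.Γ) (a' : T ⟶ C'.Γ) (b : T ⟶ B.W)
    (h1 : a ≫ C.c = b ≫ B.w)
    (h2 : a' ≫ C'.c = pullback.lift a b h1 ≫ pullback.fst C.c B.w ≫ C.c)
    (h3 : a' ≫ C'.c = b ≫ B.w)
    (h4 : a ≫ C.c = pullback.lift a' b h3 ≫ pullback.fst C'.c B.w ≫ C'.c) :
    pullback.lift a' (pullback.lift a b h1) h2 ≫ Swap.hom C C' B =
      pullback.lift a (pullback.lift a' b h3) h4 := by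
  apply pullback.hom_ext
  · rw [Category.assoc, Swap.hom_fst, pullback.lift_snd_assoc, pullback.lift_fst,
      pullback.lift_fst]
  · apply pullback.hom_ext
    · rw [Category.assoc, Category.assoc, Swap.hom_snd_fst, pullback.lift_fst,
        pullback.lift_snd, pullback.lift_fst]
    · rw [Category.assoc, Category.assoc, Swap.hom_snd_snd, pullback.lift_snd_assoc,
        pullback.lift_snd, pullback.lift_snd, pullback.lift_snd]

theorem Swap.tau (m m' : ℤ) :
    Pt.comp (Swap.hom C C' B) (Swap.hom_w C C' B)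
        ((Pt.comp (pullback.fst C.c (pullback.fst C'.c B.w ≫ C'.c)) rfl C.ι) ^ m *
          Pt.comp (pullback.snd C.c (pullback.fst C'.c B.w ≫ C'.c)) pullback.condition.symm
            ((Pt.comp (pullback.fst C'.c B.w) rfl C'.ι) ^ m' *
              Pt.comp (pullback.snd C'.c B.w) pullback.condition.symm B.τ)) =
      (Pt.comp (pullback.fst C'.c (pullback.fst C.c B.w ≫ C.c)) rfl C'.ι) ^ m' *
          Pt.comp (pullback.snd C'.c (pullback.fst C.c B.w ≫ C.c)) pullback.condition.symm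
            ((Pt.comp (pullback.fst C.c B.w) rfl C.ι) ^ m *
              Pt.comp (pullback.snd C.c B.w) pullback.condition.symm B.τ) := by
  simp only [map_mul, map_zpow, Swap.comp_comp]
  rw [mul_left_comm]
  congr 1
  · congr 1
    exact Swap.comp_congr (by simp) _ _ _
  · congr 1
    · congr 1
      exact Swap.comp_congr (by simp) _ _ _
    · exact Swap.comp_congr (by simp) _ _ _

end

theorem iso_swap {𝔸 : AbVar K} (C C' : Curve 𝔸) (m m' : ℤ) (B : Based 𝔸) :
    Nonempty (Based.Iso (C'.cons m' (C.cons m B)) (C.cons m (C'.cons m' B))) :=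
  ⟨⟨⟨Swap.hom C C' B, Swap.hom C' C B, Swap.hom_hom C C' B, Swap.hom_hom C' C B⟩,
    Swap.hom_w C C' B, Swap.lift_hom C C' B _ _ _ _ _ _ _,
    congrArg Pt.hom (Swap.tau C C' B m m')⟩⟩

end Fermat.Agent.S26
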